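import Fermat.Agent.LT.T6.H558.QuatSetSpec

/-!
# Row LT, tower T6, sub-leaf T6.18i.6b.2 `QuatBddC558` (registry 1532, helper276), OFF-MAIN

`quatBddC276 : Fermat.Agent.LT.T6.H558.QuatBddC558`, VERBATIM against
`LT/T6/H558/QuatSetSpec.lean` (helper558, sha256 `3a49f9f1…`) on `LT/T6/Spec.lean`
(helper22, sha256 `8c5f2ae7…`).  Mathlib + the spec closure only.

Route (as in the doc-comment of the Prop):
* `t δ₀ = δ₀ σ(t)` gives `t = [[a, z σ(c)], [c, σ(a)]]` (`twCent_entries276`), so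
  `det t = N a - z N c`;
* ANISOTROPY WITH A CONSTANT (`aniso276`): `|N a|, |z N c| ≤ max (1, 1/|4|)` when
  `|N a - z N c| = 1`: if `|N a| ≠ |z N c|` the valuation of the difference is the maximum; if
  they are equal, `ρ = N a / (z N c)` is fixed by `σ`, `ρ = i ρ₀`, and `|ρ₀ - 1| < |4|` would make
  `ρ₀` a square in `k` (`exists_sqrt276`, Newton for `W ↦ W² + c`; the ONLY use of
  completeness), so that `z` would be a norm;
* the four entries are then bounded by `max (1, 1/|4|) · max (1, 1/|z|) · max (1, |z|)`.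
-/

set_option autoImplicit false

open scoped Matrix

noncomputable section

namespace Fermat.Agent.LT.T6.H276

open Fermat.Agent.LT.T6 Fermat.Agent.LT.T6.H783 Fermat.Agent.LT.T6.H385
  Fermat.Agent.LT.T6.H558

/-! ## 1. Square roots near `1` (the only use of completeness) -/

section Root

open Filter Topology

/-- In `ℤᵐ⁰`, `x < 1` implies `x ≤ exp (-1)`. -/
theorem le_exp_neg_one_qb276 {x : Γ₀} (h : x < 1) : x ≤ WithZero.exp (-1 : ℤ) := by
  by_cases hx : x = 0
  · rw [hx]; exact zero_le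
  · rw [← WithZero.exp_log hx] at h ⊢
    rw [← WithZero.exp_zero, WithZero.exp_lt_exp] at h
    rw [WithZero.exp_le_exp]
    omega

variable {k : Type} [Field k] [Valued k Γ₀]

/-- The iteration `Y ↦ Y² + c` from `0`. -/
def sqSeq276 (c : k) : ℕ → k
  | 0 => 0
  | (n + 1) => (sqSeq276 c n) ^ 2 + c

theorem sqSeq_val276 (c : k) (hc : Valued.v c < 1) (n : ℕ) :
    Valued.v (sqSeq276 c n) ≤ Valued.v c := by
  induction n with
  | zero => simp [sqSeq276]
  | succ n ih =>
    show Valued.v ((sqSeq276 c n) ^ 2 + c) ≤ Valued.v c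
    refine le_trans (Valuation.map_add _ _ _) (max_le ?_ le_rfl)
    rw [Valuation.map_pow, pow_two]
    calc Valued.v (sqSeq276 c n) * Valued.v (sqSeq276 c n)
        ≤ Valued.v c * 1 := mul_le_mul' ih (le_trans ih hc.le)
      _ = Valued.v c := mul_one _

theorem sqSeq_step276 (c : k) (hc : Valued.v c < 1) (n : ℕ) :
    Valued.v (sqSeq276 c (n + 1) - sqSeq276 c n) ≤ Valued.v c ^ (n + 1) := by
  induction n with
  | zero => simp [sqSeq276]
  | succ n ih =>
    have h1 : sqSeq276 c (n + 1 + 1) - sqSeq276 c (n + 1)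
        = (sqSeq276 c (n + 1) - sqSeq276 c n) * (sqSeq276 c (n + 1) + sqSeq276 c n) := by
      show (sqSeq276 c (n + 1)) ^ 2 + c - ((sqSeq276 c n) ^ 2 + c) = _
      ring
    rw [h1, Valuation.map_mul, pow_succ (Valued.v c) (n + 1)]
    refine mul_le_mul' ih ?_
    exact le_trans (Valuation.map_add _ _ _)
      (max_le (sqSeq_val276 c hc _) (sqSeq_val276 c hc _))

theorem sqSeq_diff276 (c : k) (hc : Valued.v c < 1) (n m : ℕ) (h : n ≤ m) :
    Valued.v (sqSeq276 c m - sqSeq276 c n) ≤ Valued.v c ^ (n + 1) := by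
  induction m, h using Nat.le_induction with
  | base => simp
  | succ m hm ih =>
    have h1 : sqSeq276 c (m + 1) - sqSeq276 c n
        = (sqSeq276 c (m + 1) - sqSeq276 c m) + (sqSeq276 c m - sqSeq276 c n) := by ring
    rw [h1]
    refine le_trans (Valuation.map_add _ _ _) (max_le ?_ ih)
    refine le_trans (sqSeq_step276 c hc m) ?_
    exact pow_le_pow_right_of_le_one' hc.le (by omega)

theorem sqSeq_cauchy276 (c : k) (hc : Valued.v c < 1) : CauchySeq (sqSeq276 c) := by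
  rw [(Valued.hasBasis_uniformity k Γ₀).cauchySeq_iff]
  intro γ _
  set g : Γ₀ := MonoidWithZeroHom.ValueGroup₀.embedding γ.1 with hg
  have hγ : g ≠ 0 := by
    rw [hg]; exact (map_ne_zero _).mpr γ.ne_zero
  set a : ℤ := WithZero.log g with ha
  have hbound : ∀ n : ℕ, (-a).toNat ≤ n → Valued.v c ^ (n + 1) < g := by
    intro n hn
    have h1 : Valued.v c ^ (n + 1) ≤ WithZero.exp (-1 : ℤ) ^ (n + 1) :=
      pow_le_pow_left' (le_exp_neg_one_qb276 hc) _
    have h2 : WithZero.exp (-1 : ℤ) ^ (n + 1) = WithZero.exp (((n + 1 : ℕ)) • (-1 : ℤ)) :=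
      (WithZero.exp_nsmul _ _).symm
    have h3 : WithZero.exp (((n + 1 : ℕ)) • (-1 : ℤ)) < g := by
      rw [← WithZero.exp_log hγ, WithZero.exp_lt_exp]
      have := Int.self_le_toNat (-a)
      simp only [nsmul_eq_mul, Nat.cast_add, Nat.cast_one]
      omega
    exact lt_of_le_of_lt (h1.trans h2.le) h3
  refine ⟨(-a).toNat, fun m hm n hn => ?_⟩
  show Valued.v.restrict (sqSeq276 c n - sqSeq276 c m) < γ.1
  rw [Valuation.restrict_lt_iff_lt_embedding]
  rcases le_total m n with hmn | hnm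
  · exact lt_of_le_of_lt (sqSeq_diff276 c hc m n hmn) (hbound m hm)
  · have h1 : sqSeq276 c n - sqSeq276 c m = -(sqSeq276 c m - sqSeq276 c n) := by ring
    rw [h1, Valuation.map_neg]
    exact lt_of_le_of_lt (sqSeq_diff276 c hc n m hnm) (hbound n hn)

/-- A fixed point of `Y ↦ Y² + c` for `v c < 1` in a complete valued field. -/
theorem exists_sqfix276 [CompleteSpace k] (c : k) (hc : Valued.v c < 1) :
    ∃ Y : k, Y = Y ^ 2 + c := by
  obtain ⟨Y, hY⟩ := cauchySeq_tendsto_of_complete (sqSeq_cauchy276 c hc)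
  refine ⟨Y, ?_⟩
  have h1 : Tendsto (fun n => sqSeq276 c (n + 1)) atTop (𝓝 Y) :=
    hY.comp (tendsto_add_atTop_nat 1)
  have h2 : Tendsto (fun n => sqSeq276 c (n + 1)) atTop (𝓝 (Y ^ 2 + c)) := by
    have : Tendsto (fun n => (sqSeq276 c n) ^ 2 + c) atTop (𝓝 (Y ^ 2 + c)) :=
      (hY.pow 2).add tendsto_const_nhds
    exact this
  exact tendsto_nhds_unique h1 h2

/-- **Square roots near `1`.**  In a complete valued field with `4 ≠ 0`, every `ρ` with
`|ρ - 1| < |4|` is a square. -/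
theorem exists_sqrt276 [CompleteSpace k] (h4 : (4 : k) ≠ 0) (ρ : k)
    (h : Valued.v (ρ - 1) < Valued.v (4 : k)) : ∃ y : k, y ^ 2 = ρ := by
  have hv4 : Valued.v (4 : k) ≠ 0 := (Valuation.ne_zero_iff _).mpr h4
  have hc : Valued.v (-((ρ - 1) / 4)) < 1 := by
    rw [Valuation.map_neg, map_div₀, div_lt_iff₀ (zero_lt_iff.mpr hv4), one_mul]
    exact h
  obtain ⟨W, hW⟩ := exists_sqfix276 (-((ρ - 1) / 4)) hc
  refine ⟨1 - 2 * W, ?_⟩
  have h1 : 4 * W = 4 * W ^ 2 - (ρ - 1) := by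
    have : 4 * W = 4 * (W ^ 2 + -((ρ - 1) / 4)) := by rw [← hW]
    rw [this]; field_simp; ring
  linear_combination -h1

end Root

/-! ## 2. Order arithmetic in `ℤᵐ⁰` -/

theorem le_of_sq_le276 {x M : Γ₀} (hM : 1 ≤ M) (h : x ^ 2 ≤ M) : x ≤ M := by
  by_contra hx
  rw [not_le] at hx
  have h1 : (1 : Γ₀) ≤ x := hM.trans hx.le
  have h2 : x ≤ x ^ 2 := by
    rw [pow_two]
    calc x = x * 1 := (mul_one x).symm
      _ ≤ x * x := mul_le_mul' le_rfl h1
  exact absurd (h2.trans h) (not_le.mpr hx)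

/-! ## 3. The entries of an element of the twisted centraliser of `δ₀` -/

theorem glAut_apply276 {R : Type} [CommRing R] (s : R ≃+* R) (g : GL (Fin 2) R) (a b : Fin 2) :
    (glAut s g : Matrix (Fin 2) (Fin 2) R) a b = s ((g : Matrix (Fin 2) (Fin 2) R) a b) := by
  unfold glAut
  rw [Matrix.GeneralLinearGroup.map_apply]
  rfl

/-- `t δ₀ = δ₀ σ(t)` with `δ₀ = [[0, w], [1, 0]]`: `t = [[a, w σ(c)], [c, σ(a)]]`. -/
theorem twCent_entries276 {F : Type} [Field F] (s : F ≃+* F) (w : F) (δ₀ t : GL (Fin 2) F)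
    (hδ : IsQuatBase385 w δ₀) (ht : InTwCent s δ₀ t) :
    (t : Matrix (Fin 2) (Fin 2) F) 0 1 = w * s ((t : Matrix (Fin 2) (Fin 2) F) 1 0) ∧
    (t : Matrix (Fin 2) (Fin 2) F) 1 1 = s ((t : Matrix (Fin 2) (Fin 2) F) 0 0) := by
  have h1 : δ₀ * glAut s t = t * δ₀ := by
    unfold InTwCent at ht
    calc δ₀ * glAut s t = t * (t⁻¹ * δ₀ * glAut s t) := by group
      _ = t * δ₀ := by rw [ht]
  have h2 : (δ₀ : Matrix (Fin 2) (Fin 2) F) * (glAut s t : Matrix (Fin 2) (Fin 2) F)
      = (t : Matrix (Fin 2) (Fin 2) F) * (δ₀ : Matrix (Fin 2) (Fin 2) F) := by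
    have := congrArg (fun g : GL (Fin 2) F => (g : Matrix (Fin 2) (Fin 2) F)) h1
    simpa using this
  unfold IsQuatBase385 at hδ
  rw [hδ] at h2
  have e00 := congrFun (congrFun h2 0) 0
  have e10 := congrFun (congrFun h2 1) 0
  simp [Matrix.mul_apply, Fin.sum_univ_two, glAut_apply276] at e00 e10
  exact ⟨e00.symm, e10.symm⟩

/-! ## 4. Anisotropy with a constant -/

/-- If `|N a - z N c| = 1` and `z` is not a norm, then `|N a|, |z N c| ≤ max (1, 1/|4|)`. -/
theorem aniso276 {k k' : Type} [Field k] [Field k'] [Valued k Γ₀] [Valued k' Γ₀] (q e : ℕ)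
    (i : k →+* k') (s : k' ≃+* k') (hQ : QuadData385 k k' q e i s) (z : k)
    (hn : ¬ IsFieldNorm783 2 i s z) (a c : k')
    (hdet : Valued.v (a * s a - i z * s c * c) = 1) :
    Valued.v a ^ 2 ≤ max 1 (Valued.v (4 : k'))⁻¹ ∧
      Valued.v (i z) * Valued.v c ^ 2 ≤ max 1 (Valued.v (4 : k'))⁻¹ := by
  have _hc0 : CharZero k := hQ.hk.char0
  have _hcs : CompleteSpace k := hQ.hk.complete
  have _hc0' : CharZero k' := hQ.hk'.char0
  have hs2 : ∀ y, s (s y) = y := fun y => by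
    have := hQ.ext.cyc.order y
    simpa [pow_two] using this
  have hfix := hQ.ext.cyc.fix_i
  have hvs := hQ.ext.val_s
  have hvi := hQ.ext.val_i
  have h4 : (4 : k) ≠ 0 := by norm_num
  have h4' : (4 : k') ≠ 0 := by norm_num
  have hv4' : Valued.v (4 : k') ≠ 0 := (Valuation.ne_zero_iff _).mpr h4'
  have hvP : Valued.v (a * s a) = Valued.v a ^ 2 := by
    rw [Valuation.map_mul, hvs, pow_two]
  have hvQ : Valued.v (i z * s c * c) = Valued.v (i z) * Valued.v c ^ 2 := by
    rw [Valuation.map_mul, Valuation.map_mul, hvs, pow_two, mul_assoc]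
  rw [← hvP, ← hvQ]
  generalize hP : a * s a = P at hdet ⊢
  generalize hQd : i z * s c * c = Q at hdet ⊢
  by_cases hPQ : Valued.v P = Valued.v Q
  · have hQ0 : Q ≠ 0 := by
      intro h0
      have hP0 : P = 0 := by
        have : Valued.v P = 0 := by rw [hPQ, h0, Valuation.map_zero]
        exact (Valuation.zero_iff _).mp this
      rw [hP0, h0, sub_zero, Valuation.map_zero] at hdet
      exact zero_ne_one hdet
    have hP0 : P ≠ 0 := by
      intro h0
      apply hQ0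
      have : Valued.v Q = 0 := by rw [← hPQ, h0, Valuation.map_zero]
      exact (Valuation.zero_iff _).mp this
    have hsP : s P = P := by rw [← hP, map_mul, hs2, mul_comm]
    have hsQ : s Q = Q := by rw [← hQd, map_mul, map_mul, hfix, hs2]; ring
    obtain ⟨ρ₀, hρ⟩ := hQ.ext.cyc.fixed (P / Q) (by rw [map_div₀, hsP, hsQ])
    have hdet' : P - Q = Q * i (ρ₀ - 1) := by
      rw [map_sub, map_one, hρ]; field_simp
    rw [hdet', Valuation.map_mul, hvi] at hdet
    have hnear : Valued.v (4 : k) ≤ Valued.v (ρ₀ - 1) := by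
      by_contra hlt
      rw [not_le] at hlt
      obtain ⟨y, hy⟩ := exists_sqrt276 h4 ρ₀ hlt
      have hρ0 : ρ₀ ≠ 0 := by
        intro h0; rw [h0, map_zero] at hρ
        exact (div_ne_zero hP0 hQ0) hρ.symm
      have hy0 : y ≠ 0 := by
        intro h0; rw [h0] at hy; exact hρ0 (by rw [← hy]; ring)
      have hiy : i y ≠ 0 := (map_ne_zero i).mpr hy0
      have hc0 : c ≠ 0 := by intro h0; apply hQ0; rw [← hQd, h0]; ring
      have hsc0 : s c ≠ 0 := (map_ne_zero s).mpr hc0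
      have hiz0 : i z ≠ 0 := by intro h0; apply hQ0; rw [← hQd, h0]; ring
      apply hn
      refine ⟨a / (c * i y), ?_⟩
      have hprod : ∏ j ∈ Finset.range 2, (s ^ j) (a / (c * i y))
          = a / (c * i y) * s (a / (c * i y)) := by
        rw [Finset.prod_range_succ, Finset.prod_range_one, pow_zero, pow_one]
        rfl
      rw [hprod, map_div₀, map_mul, hfix]
      have hyy : i y ^ 2 = P / Q := by rw [← map_pow, hy, hρ]
      rw [← hP, ← hQd] at hyy
      field_simp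
      field_simp at hyy
      linear_combination hyy
    have h5 : Valued.v (4 : k') ≤ Valued.v (ρ₀ - 1) ^ e := by
      have : (4 : k') = i 4 := (map_ofNat i 4).symm
      rw [this, hvi]
      exact pow_le_pow_left' hnear e
    have h6 : Valued.v Q ≤ (Valued.v (4 : k'))⁻¹ := by
      rw [← one_div, le_div_iff₀ (zero_lt_iff.mpr hv4'), ← hdet]
      exact mul_le_mul' le_rfl h5
    exact ⟨(hPQ.le.trans h6).trans (le_max_right _ _), h6.trans (le_max_right _ _)⟩
  · have hmax : Valued.v (P - Q) = max (Valued.v P) (Valued.v Q) := by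
      have hPQ' : Valued.v P ≠ Valued.v (-Q) := by rwa [Valuation.map_neg]
      rw [sub_eq_add_neg, Valuation.map_add_of_distinct_val _ hPQ', Valuation.map_neg]
    rw [hmax] at hdet
    have h1 : Valued.v P ≤ 1 := hdet ▸ le_max_left _ _
    have h2 : Valued.v Q ≤ 1 := hdet ▸ le_max_right _ _
    exact ⟨h1.trans (le_max_left _ _), h2.trans (le_max_left _ _)⟩

/-! ## 5. The leaf -/

/-- **T6.18i.6b.2 (`H^c` is bounded).** -/
theorem quatBddC276 : QuatBddC558 := by
  intro k k' _ _ _ _ q e i s hQ z hz hn δ₀ hδ₀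
  have hvs := hQ.ext.val_s
  set A : Γ₀ := max 1 (Valued.v (4 : k'))⁻¹ with hA
  set Z : Γ₀ := Valued.v (i z) with hZ
  have hZ0 : Z ≠ 0 := (Valuation.ne_zero_iff _).mpr ((map_ne_zero i).mpr hz)
  have hA1 : 1 ≤ A := le_max_left _ _
  have hZi1 : (1 : Γ₀) ≤ max 1 Z⁻¹ := le_max_left _ _
  have hZ1 : (1 : Γ₀) ≤ max 1 Z := le_max_left _ _
  set M : Γ₀ := A * max 1 Z⁻¹ * max 1 Z with hM
  have hM1 : 1 ≤ M := one_le_mul_of_one_le_of_one_le (one_le_mul_of_one_le_of_one_le hA1 hZi1) hZ1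
  have hM0 : M ≠ 0 := fun h0 => by rw [h0] at hM1; exact absurd hM1 (by simp)
  refine ⟨WithZero.log M, fun t ht hdet => ?_⟩
  rw [WithZero.exp_log hM0]
  obtain ⟨e01, e11⟩ := twCent_entries276 s (i z) δ₀ t hδ₀ ht
  rw [Matrix.det_fin_two, e01, e11] at hdet
  obtain ⟨ha, hc⟩ := aniso276 q e i s hQ z hn _ _ hdet
  have hva : Valued.v ((t : Matrix (Fin 2) (Fin 2) k') 0 0) ≤ A := le_of_sq_le276 hA1 ha
  have hvc : Valued.v ((t : Matrix (Fin 2) (Fin 2) k') 1 0) ≤ A * max 1 Z⁻¹ := by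
    apply le_of_sq_le276 (one_le_mul_of_one_le_of_one_le hA1 hZi1)
    calc Valued.v ((t : Matrix (Fin 2) (Fin 2) k') 1 0) ^ 2
        = Z⁻¹ * (Z * Valued.v ((t : Matrix (Fin 2) (Fin 2) k') 1 0) ^ 2) := by
          rw [← mul_assoc, inv_mul_cancel₀ hZ0, one_mul]
      _ ≤ max 1 Z⁻¹ * A := mul_le_mul' (le_max_right _ _) hc
      _ = A * max 1 Z⁻¹ := mul_comm _ _
  have hAM : A ≤ M := by
    calc A ≤ A * max 1 Z⁻¹ := le_mul_of_one_le_right' hZi1
      _ ≤ M := le_mul_of_one_le_right' hZ1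
  unfold entryMax
  apply Finset.sup'_le
  rintro ⟨x, y⟩ -
  fin_cases x <;> fin_cases y
  · exact hva.trans hAM
  · show Valued.v ((t : Matrix (Fin 2) (Fin 2) k') 0 1) ≤ M
    rw [e01, Valuation.map_mul, hvs, mul_comm]
    exact mul_le_mul' hvc (le_max_right _ _)
  · exact hvc.trans (le_mul_of_one_le_right' hZ1)
  · show Valued.v ((t : Matrix (Fin 2) (Fin 2) k') 1 1) ≤ M
    rw [e11, hvs]
    exact hva.trans hAM

end Fermat.Agent.LT.T6.H276

end
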